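import Mathlib.Analysis.SpecialFunctions.Elliptic.Weierstrass
import Mathlib.NumberTheory.ModularForms.EisensteinSeries.QExpansion

/-!
# S20 / chapter J, part B: lattice sums of the period pair `(c τ, c)` and Eisenstein series
-/

set_option autoImplicit false

open UpperHalfPlane ModularForm
open scoped MatrixGroups ModularForm

namespace Fermat.Agent.S20.JInjAux

/-- For `τ ∈ ℍ` and `c ≠ 0` there is a period pair `(c τ, c)`. -/
theorem exists_periodPair (c : ℂ) (hc : c ≠ 0) (τ : ℍ) :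
    ∃ L : PeriodPair, L.ω₁ = c * (τ : ℂ) ∧ L.ω₂ = c := by
  have indep : LinearIndependent ℝ ![c * (τ : ℂ), c] := by
    rw [LinearIndependent.pair_iff]
    intro s t h
    have h1 : c * ((s : ℂ) * (τ : ℂ) + (t : ℂ)) = 0 := by
      simp only [Complex.real_smul] at h
      linear_combination h
    have h2 : (s : ℂ) * (τ : ℂ) + (t : ℂ) = 0 := by
      rcases mul_eq_zero.mp h1 with h | h
      · exact absurd h hc
      · exact h
    have him := congrArg Complex.im h2
    have hre := congrArg Complex.re h2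
    simp at him hre
    have hτ : (τ : ℂ).im ≠ 0 := ne_of_gt τ.im_pos
    have hs : s = 0 := by
      rcases him with h | h
      · exact h
      · exact absurd h hτ
    subst hs
    simp at hre
    exact ⟨rfl, hre⟩
  exact ⟨⟨c * (τ : ℂ), c, indep⟩, rfl, rfl⟩

/-- The lattice sum `G k` of the period pair `(c τ, c)` is `c⁻ᵏ · 2 ζ(k) · E_k(τ)`. -/
theorem G_eq (L : PeriodPair) (c : ℂ) (τ : ℍ) (h₁ : L.ω₁ = c * (τ : ℂ)) (h₂ : L.ω₂ = c)
    {k : ℕ} (hk : 3 ≤ k) :
    L.G k = (c ^ k)⁻¹ * (2 * riemannZeta k * ModularForm.E hk τ) := by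
  have hE : ModularForm.E hk τ = (1 / 2 : ℂ) * eisensteinSeries (N := 1) 0 k τ := by
    rw [show E hk τ = (1 / 2 : ℂ) • EisensteinSeries.eisensteinSeriesSIF (N := 1) 0 k τ from rfl,
      EisensteinSeries.eisensteinSeriesSIF_apply 0 k τ, smul_eq_mul]
  have hsum := tsum_eisSummand_eq_riemannZeta_mul_eisensteinSeries hk τ
  have key : L.G k = ∑' v : Fin 2 → ℤ, (c ^ k)⁻¹ * EisensteinSeries.eisSummand k v τ := by
    unfold PeriodPair.G
    rw [← L.latticeEquivProd.symm.toEquiv.tsum_eq, ← (finTwoArrowEquiv ℤ).tsum_eq]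
    refine tsum_congr fun v => ?_
    have hv : (finTwoArrowEquiv ℤ) v = (v 0, v 1) := rfl
    simp only [LinearEquiv.coe_toEquiv, PeriodPair.latticeEquiv_symm_apply, hv,
      h₁, h₂, EisensteinSeries.eisSummand, zpow_neg, zpow_natCast]
    rw [← mul_inv, ← mul_pow]
    congr 2
    ring
  rw [key, tsum_mul_left, hsum, hE]
  ring

end Fermat.Agent.S20.JInjAux
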