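import Mathlib.Analysis.SpecialFunctions.Elliptic.Weierstrass

/-!
# S20 / chapter J, part D: the `℘`-function near `0` determines the lattice
-/

set_option autoImplicit false

open Filter Topology
open PeriodPair

namespace Fermat.Agent.S20.JInjAux


private lemma D_countable (L : PeriodPair) : (L.lattice : Set ℂ).Countable :=
  countable_of_Lindelof_of_discrete (X := L.lattice)

private lemma D_P (L : PeriodPair) (z : ℂ) : ℘[L] z = L.weierstrassPExcept 0 z + 1 / z ^ 2 := by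
  have := L.weierstrassPExcept_def 0 z
  simp only [ZeroMemClass.coe_zero, sub_zero] at this
  rw [this]; simp

private lemma D_le (L₁ L₂ : PeriodPair)
    (h : ∀ᶠ z in 𝓝 (0 : ℂ), L₁.weierstrassPExcept 0 z = L₂.weierstrassPExcept 0 z) :
    L₁.lattice ≤ L₂.lattice := by
  set U : Set ℂ := ((L₁.lattice : Set ℂ) ∪ (L₂.lattice : Set ℂ))ᶜ with hU
  have hUc : IsPreconnected U :=
    (Set.Countable.isConnected_compl_of_one_lt_rank (by simp)
      ((D_countable L₁).union (D_countable L₂))).isPreconnected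
  have a₁ : AnalyticOnNhd ℂ ℘[L₁] U :=
    L₁.analyticOnNhd_weierstrassP.mono (by intro z hz; simp [U] at hz ⊢; exact hz.1)
  have a₂ : AnalyticOnNhd ℂ ℘[L₂] U :=
    L₂.analyticOnNhd_weierstrassP.mono (by intro z hz; simp [U] at hz ⊢; exact hz.2)
  have hP : ∀ᶠ z in 𝓝 (0 : ℂ), ℘[L₁] z = ℘[L₂] z := by
    filter_upwards [h] with z hz
    rw [D_P, D_P, hz]
  -- a point of `U` near `0`
  obtain ⟨z₀, hz₀U, hz₀⟩ : ∃ z₀ ∈ U, ℘[L₁] =ᶠ[𝓝 z₀] ℘[L₂] := by
    have h1 : ∀ᶠ y in 𝓝[≠] (0 : ℂ), (∀ᶠ z in 𝓝 y, ℘[L₁] z = ℘[L₂] z) ∧ y ∈ U := by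
      filter_upwards [eventually_nhdsWithin_of_eventually_nhds hP.eventually_nhds,
        mem_nhdsWithin_of_mem_nhds (L₁.compl_lattice_sdiff_singleton_mem_nhds 0),
        mem_nhdsWithin_of_mem_nhds (L₂.compl_lattice_sdiff_singleton_mem_nhds 0),
        self_mem_nhdsWithin] with y hy h1 h2 h3
      refine ⟨hy, ?_⟩
      simp only [Set.mem_compl_iff, Set.mem_sdiff, SetLike.mem_coe, Set.mem_singleton_iff,
        not_and, not_not] at h1 h2
      simp only [U, Set.mem_compl_iff, Set.mem_union, SetLike.mem_coe, not_or]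
      exact ⟨fun hh => h3 (h1 hh), fun hh => h3 (h2 hh)⟩
    obtain ⟨y, hy, hyU⟩ := h1.exists
    exact ⟨y, hyU, hy⟩
  have hEq : Set.EqOn ℘[L₁] ℘[L₂] U :=
    a₁.eqOn_of_preconnected_of_eventuallyEq a₂ hUc hz₀U hz₀
  intro l hl
  by_contra hl2
  have e : ℘[L₁] =ᶠ[𝓝[≠] l] ℘[L₂] := by
    filter_upwards [mem_nhdsWithin_of_mem_nhds (L₁.compl_lattice_sdiff_singleton_mem_nhds l),
      mem_nhdsWithin_of_mem_nhds (L₂.isClosed_lattice.isOpen_compl.mem_nhds hl2),
      self_mem_nhdsWithin] with z h1 h2 h3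
    refine hEq ?_
    simp only [Set.mem_compl_iff, Set.mem_sdiff, SetLike.mem_coe, Set.mem_singleton_iff,
        not_and, not_not] at h1 h2
    simp only [U, Set.mem_compl_iff, Set.mem_union, SetLike.mem_coe, not_or]
    exact ⟨fun hh => h3 (h1 hh), h2⟩
  have o1 := L₁.order_weierstrassP l hl
  have o2 : 0 ≤ meromorphicOrderAt ℘[L₂] l :=
    (L₂.analyticOnNhd_weierstrassP l hl2).meromorphicOrderAt_nonneg
  rw [meromorphicOrderAt_congr e] at o1
  rw [o1] at o2
  exact absurd o2 (by decide)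

/-- If the regular parts `℘[L - 0]` of the `℘`-functions of two period pairs agree near `0`,
the lattices are equal. -/
theorem lattice_eq_of_eventually_eq (L₁ L₂ : PeriodPair)
    (h : ∀ᶠ z in 𝓝 (0 : ℂ), L₁.weierstrassPExcept 0 z = L₂.weierstrassPExcept 0 z) :
    L₁.lattice = L₂.lattice :=
  le_antisymm (D_le L₁ L₂ h) (D_le L₂ L₁ (h.mono fun _ e => e.symm))

end Fermat.Agent.S20.JInjAux
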