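import Mathlib.Analysis.SpecialFunctions.Elliptic.Weierstrass

/-!
# S20 / chapter J, part C: the Weierstrass `℘`-function near `0` is determined by `G 4`, `G 6`

The regular parts `f_i = ℘[L_i - 0]` satisfy the same first order differential equation; if
`f₁ - f₂ = z ^ n * g` with `g 0 ≠ 0`, comparing leading terms in the difference of the two
differential equations gives `n = -3`, which is absurd.
-/

set_option autoImplicit false

open Filter Topology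
open PeriodPair

namespace Fermat.Agent.S20.JInjAux


private lemma C_abstract (f₁ f₂ k₁ k₂ : ℂ → ℂ) (g₂ g₃ : ℂ)
    (af₁ : AnalyticAt ℂ f₁ 0) (af₂ : AnalyticAt ℂ f₂ 0)
    (ak₁ : AnalyticAt ℂ k₁ 0) (ak₂ : AnalyticAt ℂ k₂ 0)
    (d₁ : ∀ᶠ z in 𝓝 (0:ℂ), deriv f₁ z = k₁ z) (d₂ : ∀ᶠ z in 𝓝 (0:ℂ), deriv f₂ z = k₂ z)
    (o₁ : ∀ᶠ z in 𝓝 (0:ℂ), z ≠ 0 → (z ^ 3 * k₁ z - 2) ^ 2 =
      4 * (z ^ 2 * f₁ z + 1) ^ 3 - g₂ * z ^ 4 * (z ^ 2 * f₁ z + 1) - g₃ * z ^ 6)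
    (o₂ : ∀ᶠ z in 𝓝 (0:ℂ), z ≠ 0 → (z ^ 3 * k₂ z - 2) ^ 2 =
      4 * (z ^ 2 * f₂ z + 1) ^ 3 - g₂ * z ^ 4 * (z ^ 2 * f₂ z + 1) - g₃ * z ^ 6) :
    ∀ᶠ z in 𝓝 (0 : ℂ), f₁ z = f₂ z := by
  have aD : AnalyticAt ℂ (fun z => f₁ z - f₂ z) 0 := af₁.sub af₂
  by_contra hne
  have hne' : ¬ ∀ᶠ z in 𝓝 (0:ℂ), (fun z => f₁ z - f₂ z) z = 0 := by
    intro h; exact hne (h.mono fun z hz => sub_eq_zero.mp hz)
  obtain ⟨n, g, ag, g0, hD⟩ := (aD.exists_eventuallyEq_pow_smul_nonzero_iff).mpr hne'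
  -- derivative
  have hD' : ∀ᶠ z in 𝓝 (0:ℂ), k₁ z - k₂ z = n * z ^ (n - 1) * g z + z ^ n * deriv g z := by
    have e1 : ∀ᶠ z in 𝓝 (0:ℂ), deriv (fun z => f₁ z - f₂ z) z
        = deriv (fun z => (z - 0) ^ n • g z) z := Filter.EventuallyEq.deriv hD
    filter_upwards [e1, d₁, d₂, ag.eventually_analyticAt, af₁.eventually_analyticAt,
      af₂.eventually_analyticAt] with z hz d1 d2 agz a1 a2
    rw [deriv_fun_sub a1.differentiableAt a2.differentiableAt, d1, d2] at hz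
    rw [hz]
    simp only [sub_zero, smul_eq_mul]
    rw [deriv_fun_mul (by fun_prop) agz.differentiableAt]
    simp
  have key : ∀ᶠ z in 𝓝 (0:ℂ), z ≠ 0 →
      (n * g z + z * deriv g z) * (z ^ 3 * k₁ z + z ^ 3 * k₂ z - 4) =
        g z * (4 * ((z ^ 2 * f₁ z + 1) ^ 2 + (z ^ 2 * f₁ z + 1) * (z ^ 2 * f₂ z + 1)
          + (z ^ 2 * f₂ z + 1) ^ 2) - g₂ * z ^ 4) := by
    filter_upwards [o₁, o₂, hD, hD'] with z o1 o2 hDz hDz' hz
    have o1 := o1 hz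
    have o2 := o2 hz
    simp only [sub_zero, smul_eq_mul] at hDz
    have hzn : z * (k₁ z - k₂ z) = z ^ n * (n * g z + z * deriv g z) := by
      rw [hDz']
      rcases n with _ | m
      · simp
      · simp [pow_succ]; ring
    have hzn0 : z ^ n ≠ 0 := pow_ne_zero _ hz
    have hz2 : z ^ 2 ≠ 0 := pow_ne_zero _ hz
    apply mul_left_cancel₀ (mul_ne_zero hz2 hzn0)
    linear_combination (o1 - o2) - z ^ 2 * (z ^ 3 * k₁ z + z ^ 3 * k₂ z - 4) * hzn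
      + z ^ 2 * (4 * ((z ^ 2 * f₁ z + 1) ^ 2 + (z ^ 2 * f₁ z + 1) * (z ^ 2 * f₂ z + 1)
          + (z ^ 2 * f₂ z + 1) ^ 2) - g₂ * z ^ 4) * hDz
  set F : ℂ → ℂ := fun z => (n * g z + z * deriv g z) * (z ^ 3 * k₁ z + z ^ 3 * k₂ z - 4) -
        g z * (4 * ((z ^ 2 * f₁ z + 1) ^ 2 + (z ^ 2 * f₁ z + 1) * (z ^ 2 * f₂ z + 1)
          + (z ^ 2 * f₂ z + 1) ^ 2) - g₂ * z ^ 4) with hF
  have hF0 : F 0 = 0 := by
    have cg : ContinuousAt g 0 := ag.continuousAt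
    have cg' : ContinuousAt (deriv g) 0 := ag.deriv.continuousAt
    have c1 : ContinuousAt f₁ 0 := af₁.continuousAt
    have c2 : ContinuousAt f₂ 0 := af₂.continuousAt
    have c3 : ContinuousAt k₁ 0 := ak₁.continuousAt
    have c4 : ContinuousAt k₂ 0 := ak₂.continuousAt
    have hc : ContinuousAt F 0 := by
      rw [hF]; fun_prop
    have h1 : Tendsto F (𝓝[≠] 0) (𝓝 (F 0)) := hc.tendsto.mono_left nhdsWithin_le_nhds
    have h2 : Tendsto F (𝓝[≠] 0) (𝓝 0) := by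
      refine tendsto_const_nhds.congr' ?_
      filter_upwards [eventually_nhdsWithin_of_eventually_nhds key, self_mem_nhdsWithin]
        with z hz hz0
      simp only [hF]
      rw [hz hz0, sub_self]
    exact tendsto_nhds_unique h1 h2
  simp only [hF] at hF0
  have : ((n : ℂ) + 3) * g 0 = 0 := by
    linear_combination (-1 / 4 : ℂ) * hF0
  rcases mul_eq_zero.mp this with h | h
  · have : ((n + 3 : ℕ) : ℂ) = 0 := by push_cast; exact h
    exact absurd (Nat.cast_eq_zero.mp this) (by omega)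
  · exact g0 h

private lemma C_ode (L : PeriodPair) :
    ∀ᶠ z in 𝓝 (0:ℂ), z ≠ 0 → (z ^ 3 * L.derivWeierstrassPExcept 0 z - 2) ^ 2 =
      4 * (z ^ 2 * L.weierstrassPExcept 0 z + 1) ^ 3
        - L.g₂ * z ^ 4 * (z ^ 2 * L.weierstrassPExcept 0 z + 1) - L.g₃ * z ^ 6 := by
  filter_upwards [L.compl_lattice_sdiff_singleton_mem_nhds 0] with z hz hz0
  have hzL : z ∉ L.lattice := by simp_all
  have h1 := L.weierstrassPExcept_def 0 z
  have h2 := L.derivWeierstrassPExcept_def 0 z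
  have h3 := L.derivWeierstrassP_sq z hzL
  simp only [ZeroMemClass.coe_zero, sub_zero] at h1 h2
  have e1 : ℘[L] z = L.weierstrassPExcept 0 z + 1 / z ^ 2 := by
    rw [h1]; simp
  have e2 : ℘'[L] z = L.derivWeierstrassPExcept 0 z - 2 / z ^ 3 := by
    rw [h2]; ring
  rw [e1, e2] at h3
  have hz2 : z ^ 2 ≠ 0 := pow_ne_zero _ hz0
  have hz3 : z ^ 3 ≠ 0 := pow_ne_zero _ hz0
  field_simp at h3
  linear_combination h3

private lemma C_deriv (L : PeriodPair) :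
    ∀ᶠ z in 𝓝 (0:ℂ), deriv (L.weierstrassPExcept 0) z = L.derivWeierstrassPExcept 0 z := by
  filter_upwards [L.compl_lattice_sdiff_singleton_mem_nhds 0] with z hz
  exact L.eqOn_deriv_weierstrassPExcept_derivWeierstrassPExcept 0 hz

/-- Two period pairs with the same `G 4` and `G 6` have the same regular part
`℘[L - 0] z = ℘[L] z - 1 / z ^ 2` of the `℘`-function near `0`. -/
theorem eventually_eq_of_G_eq (L₁ L₂ : PeriodPair) (h4 : L₁.G 4 = L₂.G 4)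
    (h6 : L₁.G 6 = L₂.G 6) :
    ∀ᶠ z in 𝓝 (0 : ℂ), L₁.weierstrassPExcept 0 z = L₂.weierstrassPExcept 0 z := by
  have hg2 : L₂.g₂ = L₁.g₂ := by simp [PeriodPair.g₂, h4]
  have hg3 : L₂.g₃ = L₁.g₃ := by simp [PeriodPair.g₃, h6]
  have o₂ := C_ode L₂
  rw [hg2, hg3] at o₂
  exact C_abstract _ _ _ _ L₁.g₂ L₁.g₃ (L₁.analyticAt_weierstrassPExcept 0)
    (L₂.analyticAt_weierstrassPExcept 0) (L₁.analyticAt_derivWeierstrassPExcept 0)
    (L₂.analyticAt_derivWeierstrassPExcept 0) (C_deriv L₁) (C_deriv L₂) (C_ode L₁) o₂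

end Fermat.Agent.S20.JInjAux
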