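import Mathlib.Analysis.SpecialFunctions.Elliptic.Weierstrass
import Mathlib.NumberTheory.ModularForms.EisensteinSeries.QExpansion

/-!
# S20 / chapter J, part E: homothetic lattices `ℤ z + ℤ = c (ℤ w + ℤ)` give `z ∈ SL(2,ℤ) w`
-/

set_option autoImplicit false

open UpperHalfPlane
open scoped MatrixGroups

namespace Fermat.Agent.S20.JInjAux

/-- Pure complex-number core of part E. -/
theorem E_core (z w c : ℂ) (hz : 0 < z.im) (hw : 0 < w.im) (a b c' d p q r s : ℤ)
    (hab : (a : ℂ) * (c * w) + b * c = z) (hcd : (c' : ℂ) * (c * w) + d * c = 1)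
    (hpq : (p : ℂ) * z + q = c * w) (hrs : (r : ℂ) * z + s = c) :
    a * d - b * c' = 1 ∧ ((c' : ℂ) * w + d ≠ 0) ∧ z * ((c' : ℂ) * w + d) = a * w + b := by
  -- `c * (c' w + d) = 1`
  have hc1 : c * ((c' : ℂ) * w + d) = 1 := by rw [← hcd]; ring
  have hden : (c' : ℂ) * w + d ≠ 0 := by
    intro h0
    rw [h0, mul_zero] at hc1
    exact zero_ne_one hc1
  have hzw : z * ((c' : ℂ) * w + d) = a * w + b := by
    have : z = c * ((a : ℂ) * w + b) := by rw [← hab]; ring
    rw [this]
    calc c * ((a : ℂ) * w + b) * ((c' : ℂ) * w + d)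
        = (c * ((c' : ℂ) * w + d)) * ((a : ℂ) * w + b) := by ring
      _ = a * w + b := by rw [hc1, one_mul]
  -- substitute
  have e1 : ((a * p + b * r : ℤ) : ℂ) * z + ((a * q + b * s : ℤ) : ℂ) = z := by
    have : (a : ℂ) * ((p : ℂ) * z + q) + b * ((r : ℂ) * z + s) = z := by
      rw [hpq, hrs]; exact hab
    push_cast; linear_combination this
  have e2 : ((c' * p + d * r : ℤ) : ℂ) * z + ((c' * q + d * s : ℤ) : ℂ) = 1 := by
    have : (c' : ℂ) * ((p : ℂ) * z + q) + d * ((r : ℂ) * z + s) = 1 := by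
      rw [hpq, hrs]; exact hcd
    push_cast; linear_combination this
  have hv : z.im ≠ 0 := hz.ne'
  -- integer identities
  have i1 : a * p + b * r = 1 := by
    have := congrArg Complex.im e1
    simp only [Complex.add_im, Complex.mul_im, Complex.intCast_re, Complex.intCast_im,
      zero_mul, add_zero] at this
    have h' : ((a * p + b * r : ℤ) : ℝ) = 1 := by
      have h'' : ((a * p + b * r : ℤ) : ℝ) * z.im = 1 * z.im := by rw [one_mul]; exact this
      exact mul_right_cancel₀ hv h''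
    exact_mod_cast h'
  have i2 : a * q + b * s = 0 := by
    have := congrArg Complex.re e1
    simp only [Complex.add_re, Complex.intCast_re, i1, Int.cast_one, one_mul] at this
    have h' : ((a * q + b * s : ℤ) : ℝ) = 0 := by linarith
    exact_mod_cast h'
  have i3 : c' * p + d * r = 0 := by
    have := congrArg Complex.im e2
    simp only [Complex.add_im, Complex.mul_im, Complex.intCast_re, Complex.intCast_im,
      zero_mul, add_zero, Complex.one_im] at this
    have h' : ((c' * p + d * r : ℤ) : ℝ) = 0 := by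
      rcases mul_eq_zero.mp this with h'' | h''
      · exact h''
      · exact absurd h'' hv
    exact_mod_cast h'
  have i4 : c' * q + d * s = 1 := by
    have := congrArg Complex.re e2
    simp only [Complex.intCast_re, i3, Int.cast_zero, zero_mul,
      zero_add, Complex.one_re] at this
    exact_mod_cast this
  have hdet : (a * d - b * c') * (p * s - q * r) = 1 := by
    have : (a * d - b * c') * (p * s - q * r)
        = (a * p + b * r) * (c' * q + d * s) - (a * q + b * s) * (c' * p + d * r) := by ring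
    rw [this, i1, i2, i3, i4]; ring
  -- positivity
  have hre := congrArg Complex.re hzw
  have him := congrArg Complex.im hzw
  simp only [Complex.add_re, Complex.mul_re, Complex.intCast_re, Complex.intCast_im,
    zero_mul, sub_zero, Complex.add_im, Complex.mul_im, add_zero] at hre him
  -- N = c' x + d, M = c' y
  have hNM : 0 < ((c' : ℝ) * w.re + d) ^ 2 + ((c' : ℝ) * w.im) ^ 2 := by
    by_contra hcon
    have h0 : ((c' : ℝ) * w.re + d) ^ 2 + ((c' : ℝ) * w.im) ^ 2 = 0 :=
      le_antisymm (not_lt.mp hcon) (by positivity)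
    have hN : (c' : ℝ) * w.re + d = 0 := by
      nlinarith [sq_nonneg ((c' : ℝ) * w.re + d), sq_nonneg ((c' : ℝ) * w.im)]
    have hM : (c' : ℝ) * w.im = 0 := by
      nlinarith [sq_nonneg ((c' : ℝ) * w.re + d), sq_nonneg ((c' : ℝ) * w.im)]
    apply hden
    apply Complex.ext
    · simp [hN]
    · simp [hM]
  have hpos : (0 : ℝ) < ((a * d - b * c' : ℤ) : ℝ) * w.im := by
    have : ((a * d - b * c' : ℤ) : ℝ) * w.im
        = z.im * (((c' : ℝ) * w.re + d) ^ 2 + ((c' : ℝ) * w.im) ^ 2) := by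
      push_cast
      linear_combination (-((c' : ℝ) * w.re + d)) * him + (c' : ℝ) * w.im * hre
    rw [this]
    exact mul_pos hz hNM
  have hpos' : (0 : ℤ) < a * d - b * c' := by
    have : (0 : ℝ) < ((a * d - b * c' : ℤ) : ℝ) := pos_of_mul_pos_left hpos hw.le
    exact_mod_cast this
  refine ⟨?_, hden, hzw⟩
  rcases Int.eq_one_or_neg_one_of_mul_eq_one hdet with h1 | h1
  · exact h1
  · rw [h1] at hpos'; exact absurd hpos' (by norm_num)

theorem exists_smul_of_lattice_eq (L₁ L₂ : PeriodPair) (z w : ℍ) (c : ℂ)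
    (h₁ : L₁.ω₁ = (z : ℂ)) (h₁' : L₁.ω₂ = 1) (h₂ : L₂.ω₁ = c * (w : ℂ)) (h₂' : L₂.ω₂ = c)
    (h : L₁.lattice = L₂.lattice) :
    ∃ γ : SL(2, ℤ), γ • w = z := by
  have hz : (z : ℂ) ∈ L₂.lattice := by rw [← h, ← h₁]; exact L₁.ω₁_mem_lattice
  have h1 : (1 : ℂ) ∈ L₂.lattice := by rw [← h, ← h₁']; exact L₁.ω₂_mem_lattice
  have hcw : c * (w : ℂ) ∈ L₁.lattice := by rw [h, ← h₂]; exact L₂.ω₁_mem_lattice
  have hc : c ∈ L₁.lattice := by rw [h, ← h₂']; exact L₂.ω₂_mem_lattice
  obtain ⟨a, b, hab⟩ := PeriodPair.mem_lattice.mp hz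
  obtain ⟨c', d, hcd⟩ := PeriodPair.mem_lattice.mp h1
  obtain ⟨p, q, hpq⟩ := PeriodPair.mem_lattice.mp hcw
  obtain ⟨r, s, hrs⟩ := PeriodPair.mem_lattice.mp hc
  rw [h₂, h₂'] at hab hcd
  rw [h₁, h₁', mul_one] at hpq hrs
  obtain ⟨hdet, hden, hzw⟩ := E_core (z : ℂ) (w : ℂ) c z.im_pos w.im_pos a b c' d p q r s
    hab hcd hpq hrs
  have hdet' : (!![a, b; c', d] : Matrix (Fin 2) (Fin 2) ℤ).det = 1 := by
    rw [Matrix.det_fin_two_of]; exact hdet
  obtain ⟨γ, hγ⟩ : ∃ γ : SL(2, ℤ), (γ : Matrix (Fin 2) (Fin 2) ℤ) = !![a, b; c', d] :=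
    ⟨⟨_, hdet'⟩, rfl⟩
  have g00 : γ 0 0 = a := by rw [hγ]; rfl
  have g01 : γ 0 1 = b := by rw [hγ]; rfl
  have g10 : γ 1 0 = c' := by rw [hγ]; rfl
  have g11 : γ 1 1 = d := by rw [hγ]; rfl
  refine ⟨γ, ?_⟩
  apply UpperHalfPlane.ext
  rw [UpperHalfPlane.coe_specialLinearGroup_apply, g00, g01, g10, g11]
  simp only [algebraMap_int_eq, Int.coe_castRingHom, Complex.ofReal_intCast]
  rw [div_eq_iff hden]
  exact hzw.symm

end Fermat.Agent.S20.JInjAux
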