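import Mathlib.NumberTheory.ModularForms.LevelOne.GradedRing
import Mathlib.Analysis.Complex.Polynomial.Basic

/-!
# S20 / chapter J, part A: algebra

If `E₄(z)³/Δ(z) = E₄(w)³/Δ(w)` then `(E₄(z), E₆(z)) = (c⁻⁴ E₄(w), c⁻⁶ E₆(w))` for some `c ≠ 0`.
-/

set_option autoImplicit false

open UpperHalfPlane ModularForm
open scoped MatrixGroups ModularForm

namespace Fermat.Agent.S20.JInjAux

/-- Purely algebraic core of `exists_scale`. -/
private theorem A_alg (a b a' b' : ℂ) (h1 : a ^ 3 - b ^ 2 ≠ 0) (h2 : a' ^ 3 - b' ^ 2 ≠ 0)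
    (h : a ^ 3 * b' ^ 2 = a' ^ 3 * b ^ 2) :
    ∃ c : ℂ, c ≠ 0 ∧ a = (c ^ 4)⁻¹ * a' ∧ b = (c ^ 6)⁻¹ * b' := by
  by_cases ha' : a' = 0
  · -- case (i): `a' = 0`
    subst ha'
    have hb' : b' ≠ 0 := by
      rintro rfl
      simp at h2
    have ha : a = 0 := by
      have h3 : a ^ 3 * b' ^ 2 = 0 := by rw [h]; ring
      rcases mul_eq_zero.mp h3 with h4 | h4
      · exact pow_eq_zero_iff (by norm_num) |>.mp h4
      · exact absurd (pow_eq_zero_iff (by norm_num) |>.mp h4) hb'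
    subst ha
    have hb : b ≠ 0 := by
      rintro rfl
      simp at h1
    obtain ⟨c, hc⟩ := IsAlgClosed.exists_pow_nat_eq (b' / b) (n := 6) (by norm_num)
    have hc0 : c ≠ 0 := by
      rintro rfl
      have : b' / b = 0 := by rw [← hc]; simp
      exact div_ne_zero hb' hb this
    refine ⟨c, hc0, by simp, ?_⟩
    rw [hc]
    field_simp
  by_cases hb' : b' = 0
  · -- case (ii): `b' = 0`, `a' ≠ 0`
    subst hb'
    have hb : b = 0 := by
      have h3 : a' ^ 3 * b ^ 2 = 0 := by rw [← h]; ring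
      rcases mul_eq_zero.mp h3 with h4 | h4
      · exact absurd (pow_eq_zero_iff (by norm_num) |>.mp h4) ha'
      · exact pow_eq_zero_iff (by norm_num) |>.mp h4
    subst hb
    have ha : a ≠ 0 := by
      rintro rfl
      simp at h1
    obtain ⟨c, hc⟩ := IsAlgClosed.exists_pow_nat_eq (a' / a) (n := 4) (by norm_num)
    have hc0 : c ≠ 0 := by
      rintro rfl
      have : a' / a = 0 := by rw [← hc]; simp
      exact div_ne_zero ha' ha this
    refine ⟨c, hc0, ?_, by simp⟩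
    rw [hc]
    field_simp
  -- case (iii): `a' ≠ 0`, `b' ≠ 0`
  have ha : a ≠ 0 := by
    rintro rfl
    have h3 : a' ^ 3 * b ^ 2 = 0 := by rw [← h]; ring
    rcases mul_eq_zero.mp h3 with h4 | h4
    · exact ha' (pow_eq_zero_iff (by norm_num) |>.mp h4)
    · have hb : b = 0 := pow_eq_zero_iff (by norm_num) |>.mp h4
      subst hb
      simp at h1
  have hb : b ≠ 0 := by
    rintro rfl
    have h3 : a ^ 3 * b' ^ 2 = 0 := by rw [h]; ring
    rcases mul_eq_zero.mp h3 with h4 | h4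
    · exact ha (pow_eq_zero_iff (by norm_num) |>.mp h4)
    · exact hb' (pow_eq_zero_iff (by norm_num) |>.mp h4)
  -- `μ = B / A` with `A = a' / a`, `B = b' / b`
  obtain ⟨c, hc⟩ := IsAlgClosed.exists_pow_nat_eq ((b' / b) / (a' / a)) (n := 2) (by norm_num)
  have hμ : (b' / b) / (a' / a) ≠ 0 := div_ne_zero (div_ne_zero hb' hb) (div_ne_zero ha' ha)
  have hc0 : c ≠ 0 := by
    rintro rfl
    apply hμ
    rw [← hc]; simp
  have hAB : (a' / a) ^ 3 = (b' / b) ^ 2 := by
    field_simp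
    linear_combination -h
  have h4 : c ^ 4 = a' / a := by
    have : c ^ 4 = (c ^ 2) ^ 2 := by ring
    rw [this, hc, div_pow, ← hAB]
    have hA : a' / a ≠ 0 := div_ne_zero ha' ha
    field_simp
  have h6 : c ^ 6 = b' / b := by
    have : c ^ 6 = (c ^ 2) ^ 3 := by ring
    rw [this, hc, div_pow, hAB]
    have hB : b' / b ≠ 0 := div_ne_zero hb' hb
    field_simp
  refine ⟨c, hc0, ?_, ?_⟩
  · rw [h4]; field_simp
  · rw [h6]; field_simp

theorem exists_scale (z w : ℍ)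
    (h : E₄ z ^ 3 / ModularForm.discriminant z = E₄ w ^ 3 / ModularForm.discriminant w) :
    ∃ c : ℂ, c ≠ 0 ∧ E₄ z = (c ^ 4)⁻¹ * E₄ w ∧ E₆ z = (c ^ 6)⁻¹ * E₆ w := by
  have hz := ModularForm.discriminant_ne_zero z
  have hw := ModularForm.discriminant_ne_zero w
  have hz' := ModularForm.discriminant_eq_E₄_cube_sub_E₆_sq z
  have hw' := ModularForm.discriminant_eq_E₄_cube_sub_E₆_sq w
  have h1 : E₄ z ^ 3 - E₆ z ^ 2 ≠ 0 := by
    intro h0
    apply hz
    rw [hz', h0, zero_div]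
  have h2 : E₄ w ^ 3 - E₆ w ^ 2 ≠ 0 := by
    intro h0
    apply hw
    rw [hw', h0, zero_div]
  refine A_alg (E₄ z) (E₆ z) (E₄ w) (E₆ w) h1 h2 ?_
  rw [hz', hw'] at h
  rw [div_eq_div_iff (div_ne_zero h1 (by norm_num)) (div_ne_zero h2 (by norm_num))] at h
  linear_combination (-1728 : ℂ) * h

end Fermat.Agent.S20.JInjAux
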